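import Mathlib
import Fermat.Prelude.Def_GroupCohomology_ContinuousUnramified

/-!
# CFT / S55 bridge: the cyclotomic character, the dual twist and the splitting field

* `cycloChar p` is unramified outside `p` and factors through a number field;
* there is a finite Galois `K/ℚ`, unramified outside `S`, with
  `Gal(ℚ̄/K) = ker ρ_M ∩ ker (cycloChar p)`;
* `M.dualTwist (cycloChar p)` satisfies the hypotheses of S55 again.
-/

set_option autoImplicit false

namespace Fermat.Agent.CFT

open CategoryTheory groupCohomology ExtCitation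

local notation "Qbar" => AlgebraicClosure ℚ
local notation "GQ" => (AlgebraicClosure ℚ ≃ₐ[ℚ] AlgebraicClosure ℚ)

local instance lc_isAlgebraicQbar : Algebra.IsAlgebraic ℚ (AlgebraicClosure ℚ) :=
  AlgebraicClosure.isAlgebraic ℚ
local instance lc_isAlgClosureQbar : IsAlgClosure ℚ (AlgebraicClosure ℚ) :=
  ⟨inferInstance, inferInstance⟩
local instance lc_normalQbar : Normal ℚ (AlgebraicClosure ℚ) :=
  IsAlgClosure.normal ℚ (AlgebraicClosure ℚ)
local instance lc_isGaloisQbar : IsGalois ℚ (AlgebraicClosure ℚ) := ⟨⟩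

/-! ### roots of unity and inertia -/

theorem lc_mem_of_pow_eq_one {L : Type*} [Field L] (A : ValuationSubring L) {t : L} {n : ℕ}
    (hn : n ≠ 0) (ht : t ^ n = 1) : t ∈ A := by
  rcases A.mem_or_inv_mem t with h | h
  · exact h
  · have h1 : t = (t⁻¹) ^ (n - 1) := by
      have ht0 : t ≠ 0 := by
        rintro rfl
        rw [zero_pow hn] at ht
        exact zero_ne_one ht
      obtain ⟨m, rfl⟩ := Nat.exists_eq_succ_of_ne_zero hn
      rw [Nat.succ_sub_one, inv_pow]
      rw [pow_succ] at ht
      field_simp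
      rw [mul_comm]
      exact ht
    rw [h1]
    exact pow_mem h _

theorem lc_inertia_fix_root {L : Type*} [Field L] {K : Type*} [Field K] [Algebra K L]
    (A : ValuationSubring L) {q p : ℕ} (hp : p.Prime) (hq : q.Prime)
    (hqp : q ≠ p) (hA : A.LiesOverPrime q) {σ : L ≃ₐ[K] L} (hσ : σ ∈ A.inertiaSubgroupIn K)
    {t : L} (ht : t ^ p = 1) : σ t = t := by
  have htA : t ∈ A := lc_mem_of_pow_eq_one A hp.ne_zero ht
  obtain ⟨τ, hτ, rfl⟩ := hσ
  have h1 : MulSemiringAction.toRingAut (A.decompositionSubgroup K)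
      (IsLocalRing.ResidueField A) τ = 1 := hτ
  have h2 := congrArg (fun f => f (IsLocalRing.residue A ⟨t, htA⟩)) h1
  have h3 : IsLocalRing.residue A (τ • (⟨t, htA⟩ : A)) = IsLocalRing.residue A ⟨t, htA⟩ := h2
  set t' : A := ⟨t, htA⟩ with ht'
  set s : A := τ • t' with hs
  have hsval : (s : L) = (A.decompositionSubgroup K).subtype τ t := rfl
  have ht'p : t' ^ p = 1 := Subtype.ext ht
  have hsp : s ^ p = 1 := by
    rw [hs, ← smul_pow', ht'p, smul_one]
  have hgeom := Commute.geom_sum₂_mul (Commute.all s t') p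
  rw [hsp, ht'p, sub_self, mul_eq_zero] at hgeom
  rcases hgeom with hsum | hst
  · exfalso
    have hres := congrArg (IsLocalRing.residue A) hsum
    rw [map_sum, map_zero] at hres
    set r := IsLocalRing.residue A t' with hr
    have hrp : r ^ p = 1 := by rw [hr, ← map_pow, ht'p, map_one]
    have hr0 : r ≠ 0 := by
      intro h0
      rw [h0, zero_pow hp.ne_zero] at hrp
      exact zero_ne_one hrp
    have hterm : ∀ i ∈ Finset.range p,
        IsLocalRing.residue A (s ^ i * t' ^ (p - 1 - i)) = r ^ (p - 1) := by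
      intro i hi
      rw [map_mul, map_pow, map_pow, h3, ← pow_add]
      congr 1
      have := Finset.mem_range.mp hi
      omega
    rw [Finset.sum_congr rfl hterm, Finset.sum_const, Finset.card_range, nsmul_eq_mul,
      mul_eq_zero] at hres
    have hp0 : (p : IsLocalRing.ResidueField A) = 0 :=
      hres.resolve_right (pow_ne_zero _ hr0)
    have hq0 : (q : IsLocalRing.ResidueField A) = 0 := by
      obtain ⟨hqA, hqm⟩ := A.mem_nonunits_iff_exists_mem_maximalIdeal.mp hA
      have := (IsLocalRing.residue_eq_zero_iff _).mpr hqm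
      rw [← this, ← map_natCast (IsLocalRing.residue A) q]
      congr 1
    have hcop : IsCoprime (p : ℤ) (q : ℤ) :=
      Nat.isCoprime_iff_coprime.mpr ((Nat.coprime_primes hp hq).mpr (Ne.symm hqp))
    obtain ⟨a, b, hab⟩ := hcop
    have := congrArg (Int.cast : ℤ → IsLocalRing.ResidueField A) hab
    push_cast at this
    rw [hp0, hq0, mul_zero, mul_zero, add_zero] at this
    exact zero_ne_one this
  · rw [← hsval, sub_eq_zero.mp hst]

/-! ### the cyclotomic character -/

variable (p : ℕ) [Fact p.Prime]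

theorem cycloChar_eq_one_of_fix {σ : GQ} (h : ∀ t : Qbar, t ^ p = 1 → σ t = t) :
    cycloChar p σ = 1 := by
  have : NeZero p := ⟨(Fact.out : p.Prime).ne_zero⟩
  have h1 : Fact (1 < p) := ⟨(Fact.out : p.Prime).one_lt⟩
  have := modularCyclotomicCharacter.unique (L := Qbar) (card_rootsOfUnity_eq_self p)
    (σ : Qbar ≃+* Qbar) (c := 1) (fun t ht => by
      rw [ZMod.val_one, pow_one]
      apply h
      have := (mem_rootsOfUnity _ _).mp ht
      rw [← Units.val_pow_eq_pow_val, this, Units.val_one])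
  apply Units.ext
  exact this.symm

theorem apply_eq_pow_cycloChar (σ : GQ) {t : Qbar} (ht : t ^ p = 1) :
    σ t = t ^ ((cycloChar p σ : (ZMod p)ˣ) : ZMod p).val := by
  have : NeZero p := ⟨(Fact.out : p.Prime).ne_zero⟩
  have ht0 : t ≠ 0 := by
    rintro rfl
    rw [zero_pow (Fact.out : p.Prime).ne_zero] at ht
    exact zero_ne_one ht
  have hmem : Units.mk0 t ht0 ∈ rootsOfUnity p Qbar := by
    rw [mem_rootsOfUnity]
    apply Units.ext
    simpa using ht
  exact modularCyclotomicCharacter.spec (L := Qbar) (card_rootsOfUnity_eq_self p)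
    (σ : Qbar ≃+* Qbar) hmem

/-- (C1) the mod `p` cyclotomic character is unramified outside `p`. -/
theorem cycloChar_eq_one_of_mem_inertia {q : ℕ} (hq : q.Prime) (hqp : q ≠ p)
    (A : ValuationSubring Qbar) (hA : A.LiesOverPrime q) {g : GQ}
    (hg : g ∈ A.inertiaSubgroupIn ℚ) : cycloChar p g = 1 :=
  cycloChar_eq_one_of_fix p fun _ ht => lc_inertia_fix_root A Fact.out hq hqp hA hg ht

/-- the field `ℚ(μ_p)`. -/
noncomputable def cycloField : IntermediateField ℚ Qbar :=
  IntermediateField.adjoin ℚ {t : Qbar | t ^ p = 1}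

instance finiteDimensional_cycloField : FiniteDimensional ℚ (cycloField p) := by
  have hfin : Finite {t : Qbar | t ^ p = 1} := by
    have hsub : {t : Qbar | t ^ p = 1} ⊆ ((Polynomial.nthRoots p (1 : Qbar)).toFinset : Set Qbar) := by
      intro t ht
      rw [Finset.mem_coe, Multiset.mem_toFinset, Polynomial.mem_nthRoots (Fact.out : p.Prime).pos]
      exact ht
    exact (Set.Finite.subset (Finset.finite_toSet _) hsub)
  exact IntermediateField.finiteDimensional_adjoin fun x _ => Algebra.IsIntegral.isIntegral x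

theorem cycloChar_eq_one_iff_mem_fixingSubgroup (s : GQ) :
    cycloChar p s = 1 ↔ s ∈ (cycloField p).fixingSubgroup := by
  constructor
  · intro h
    have hle : cycloField p ≤ IntermediateField.fixedField (Subgroup.zpowers s) := by
      rw [cycloField, IntermediateField.adjoin_le_iff]
      intro t ht
      rw [SetLike.mem_coe, IntermediateField.mem_fixedField_iff]
      intro f hf
      obtain ⟨n, rfl⟩ := Subgroup.mem_zpowers_iff.mp hf
      have h1 : s t = t := by
        have h1 : Fact (1 < p) := ⟨(Fact.out : p.Prime).one_lt⟩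
        rw [apply_eq_pow_cycloChar p s ht, h, Units.val_one, ZMod.val_one, pow_one]
      have h2 : s ∈ MulAction.stabilizer GQ t := h1
      exact zpow_mem h2 n
    rw [IntermediateField.mem_fixingSubgroup_iff]
    intro y hy
    exact (IntermediateField.mem_fixedField_iff _ _).mp (hle hy) s (Subgroup.mem_zpowers s)
  · intro h
    rw [IntermediateField.mem_fixingSubgroup_iff] at h
    exact cycloChar_eq_one_of_fix p fun t ht => h t (IntermediateField.subset_adjoin _ _ ht)

/-! ### fields attached to open normal subgroups -/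

/-- an (abstractly) open subgroup is the fixing subgroup of a number field. -/
theorem lc_exists_field_of_le (U : Subgroup GQ) (F₀ : IntermediateField ℚ Qbar)
    [FiniteDimensional ℚ F₀] (hU : F₀.fixingSubgroup ≤ U) :
    ∃ K : IntermediateField ℚ Qbar, FiniteDimensional ℚ K ∧ K ≤ F₀ ∧ K.fixingSubgroup = U := by
  have hopen : IsOpen (U : Set GQ) :=
    Subgroup.isOpen_mono hU (IntermediateField.fixingSubgroup_isOpen F₀)
  have hclosed : IsClosed (U : Set GQ) := Subgroup.isClosed_of_isOpen U hopen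
  let U' : ClosedSubgroup GQ := ⟨U, hclosed⟩
  have hfix : (IntermediateField.fixedField U).fixingSubgroup = U :=
    InfiniteGalois.fixingSubgroup_fixedField U'
  have hle : IntermediateField.fixedField U ≤ F₀ := by
    rw [← InfiniteGalois.fixedField_fixingSubgroup F₀]
    exact IntermediateField.fixedField_antitone hU
  refine ⟨IntermediateField.fixedField U, ?_, hle, hfix⟩
  exact FiniteDimensional.of_injective (IntermediateField.inclusion hle).toLinearMap
      (IntermediateField.inclusion_injective hle)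

theorem lc_isGalois_of_normal (K : IntermediateField ℚ Qbar) (h : K.fixingSubgroup.Normal) :
    IsGalois ℚ K := by
  have h1 := (InfiniteGalois.normal_iff_isGalois K).mp h
  convert h1
  exact Subsingleton.elim _ _

section Splitting

variable {p}
variable (S : Finset Nat.Primes) (M : Rep (ZMod p) GQ)

/-- a number field trivialising `M`. -/
theorem lc_exists_trivialising [FiniteDimensional (ZMod p) M]
    (hsm : ∀ m : M, ∃ F : IntermediateField ℚ Qbar, FiniteDimensional ℚ F ∧
      ∀ s ∈ F.fixingSubgroup, M.ρ s m = m) :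
    ∃ F : IntermediateField ℚ Qbar, FiniteDimensional ℚ F ∧
      ∀ s ∈ F.fixingSubgroup, M.ρ s = 1 := by
  classical
  choose F hF hFm using hsm
  let b := Module.finBasis (ZMod p) M
  refine ⟨⨆ i, F (b i), ?_, fun s hs => ?_⟩
  · have := fun i => hF (b i)
    exact IntermediateField.finiteDimensional_iSup_of_finite
  · apply b.ext
    intro i
    rw [Module.End.one_apply]
    exact hFm (b i) s (IntermediateField.fixingSubgroup_antitone (le_iSup (fun i => F (b i)) i) hs)

/-- (C3) the splitting field of `M` and `μ_p`. -/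
theorem exists_splitting_field (hpS : pPrime p ∈ S) [FiniteDimensional (ZMod p) M]
    (hsm : ∀ m : M, ∃ F : IntermediateField ℚ Qbar, FiniteDimensional ℚ F ∧
      ∀ s ∈ F.fixingSubgroup, M.ρ s m = m)
    (hMur : ∀ q : Nat.Primes, q ∉ S → ∀ A : ValuationSubring Qbar,
      A.LiesOverPrime (q : ℕ) → ∀ g ∈ A.inertiaSubgroupIn ℚ, M.ρ g = 1) :
    ∃ K : IntermediateField ℚ Qbar, K.IsUnramifiedOutside S ∧ IsGalois ℚ K ∧
      cycloField p ≤ K ∧
      ∀ s : GQ, s ∈ K.fixingSubgroup ↔ (M.ρ s = 1 ∧ cycloChar p s = 1) := by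
  obtain ⟨F, hF, hFM⟩ := lc_exists_trivialising M hsm
  let U : Subgroup GQ := M.ρ.ker ⊓ (cycloChar p).ker
  have hU : (F ⊔ cycloField p).fixingSubgroup ≤ U := by
    intro s hs
    rw [IntermediateField.fixingSubgroup_sup] at hs
    exact ⟨hFM s hs.1, (cycloChar_eq_one_iff_mem_fixingSubgroup p s).mpr hs.2⟩
  obtain ⟨K, hK, -, hKU⟩ := lc_exists_field_of_le U (F ⊔ cycloField p) hU
  have hmem : ∀ s : GQ, s ∈ K.fixingSubgroup ↔ (M.ρ s = 1 ∧ cycloChar p s = 1) := by
    intro s
    rw [hKU]
    exact Iff.rfl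
  refine ⟨K, ⟨hK, fun q hq A hA g hg => ?_⟩, ?_, ?_, hmem⟩
  · rw [hmem]
    refine ⟨hMur q hq A hA g hg, cycloChar_eq_one_of_mem_inertia p q.2 ?_ A hA hg⟩
    intro hqp
    apply hq
    have : q = pPrime p := Subtype.ext hqp
    rwa [this]
  · apply lc_isGalois_of_normal
    rw [hKU]
    infer_instance
  · rw [← InfiniteGalois.fixedField_fixingSubgroup K,
      ← InfiniteGalois.fixedField_fixingSubgroup (cycloField p)]
    apply IntermediateField.fixedField_antitone
    intro s hs
    exact (cycloChar_eq_one_iff_mem_fixingSubgroup p s).mp ((hmem s).mp hs).2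

/-- (C2) -/
theorem dualTwist_ρ_eq_one {s : GQ} (h1 : M.ρ s = 1) (h2 : cycloChar p s = 1) :
    (M.dualTwist (cycloChar p)).ρ s = 1 := by
  have h3 : M.ρ s⁻¹ = 1 := by
    have : M.ρ s⁻¹ * M.ρ s = 1 := by rw [← map_mul, inv_mul_cancel, map_one]
    rwa [h1, mul_one] at this
  ext f : 1
  rw [Rep.dualTwist_ρ_apply, h2, h3]
  simp [Module.End.one_eq_id]

theorem dualTwist_smooth [FiniteDimensional (ZMod p) M]
    (hsm : ∀ m : M, ∃ F : IntermediateField ℚ Qbar, FiniteDimensional ℚ F ∧
      ∀ s ∈ F.fixingSubgroup, M.ρ s m = m) :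
    ∀ m : M.dualTwist (cycloChar p), ∃ F : IntermediateField ℚ Qbar, FiniteDimensional ℚ F ∧
      ∀ s ∈ F.fixingSubgroup, (M.dualTwist (cycloChar p)).ρ s m = m := by
  obtain ⟨F, hF, hFM⟩ := lc_exists_trivialising M hsm
  intro m
  refine ⟨F ⊔ cycloField p, inferInstance, fun s hs => ?_⟩
  rw [IntermediateField.fixingSubgroup_sup] at hs
  rw [dualTwist_ρ_eq_one M (hFM s hs.1) ((cycloChar_eq_one_iff_mem_fixingSubgroup p s).mpr hs.2)]
  rfl

theorem dualTwist_unramified (hpS : pPrime p ∈ S)
    (hMur : ∀ q : Nat.Primes, q ∉ S → ∀ A : ValuationSubring Qbar,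
      A.LiesOverPrime (q : ℕ) → ∀ g ∈ A.inertiaSubgroupIn ℚ, M.ρ g = 1) :
    ∀ q : Nat.Primes, q ∉ S → ∀ A : ValuationSubring Qbar,
      A.LiesOverPrime (q : ℕ) → ∀ g ∈ A.inertiaSubgroupIn ℚ,
        (M.dualTwist (cycloChar p)).ρ g = 1 := by
  intro q hq A hA g hg
  refine dualTwist_ρ_eq_one M (hMur q hq A hA g hg)
    (cycloChar_eq_one_of_mem_inertia p q.2 ?_ A hA hg)
  intro hqp
  apply hq
  have : q = pPrime p := Subtype.ext hqp
  rwa [this]

end Splitting

end Fermat.Agent.CFT
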