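import Mathlib
import Fermat.Prelude.Def_GaloisRep_CompletionBridge

/-!
# CFT / S55 bridge: the image of the local Galois group is the decomposition group

`localGaloisToGlobal q : Gal(ℚ̄_q/ℚ_q) →* Gal(ℚ̄/ℚ)` has range exactly the decomposition group of
`padicPlace q`.
-/

set_option autoImplicit false

namespace Fermat.Agent.CFT

open scoped NNReal TensorProduct Pointwise

variable (q : ℕ) [Fact q.Prime]

local instance lb_tower : IsScalarTower ℚ ℚ_[q] (PadicAlgCl q) :=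
  IsScalarTower.of_algebraMap_eq' (Subsingleton.elim _ _)

theorem lb_norm_natCast_q : ‖(q : PadicAlgCl q)‖ = (q : ℝ)⁻¹ := by
  have h := PadicAlgCl.norm_extends q (q : ℚ_[q])
  rw [Padic.norm_p] at h
  rw [← h]
  simp

theorem lb_norm_padicEmbedding_q : ‖padicEmbedding q (q : AlgebraicClosure ℚ)‖ = (q : ℝ)⁻¹ := by
  rw [map_natCast, lb_norm_natCast_q]

theorem lb_mem_padicPlace_iff {x : AlgebraicClosure ℚ} :
    x ∈ padicPlace q ↔ ‖padicEmbedding q x‖ ≤ 1 := by
  rw [mem_padicPlace_iff, ← NNReal.coe_le_coe]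
  rfl

/-- (B0) -/
theorem padicPlace_liesOverPrime : (padicPlace q).LiesOverPrime q := by
  have hq : (1 : ℝ) < q := by exact_mod_cast (Fact.out : q.Prime).one_lt
  unfold ValuationSubring.LiesOverPrime
  rw [ValuationSubring.mem_nonunits_iff_or]
  right
  rw [lb_mem_padicPlace_iff, map_inv₀, norm_inv, lb_norm_padicEmbedding_q, inv_inv]
  exact not_le.mpr hq

theorem lb_mem_of_mem_decomposition {σ : AlgebraicClosure ℚ ≃ₐ[ℚ] AlgebraicClosure ℚ}
    (hσ : σ ∈ (padicPlace q).decompositionSubgroup ℚ) {x : AlgebraicClosure ℚ}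
    (hx : x ∈ padicPlace q) : σ x ∈ padicPlace q := by
  have h : σ • padicPlace q = padicPlace q := MulAction.mem_stabilizer_iff.mp hσ
  rw [← h]
  exact ValuationSubring.smul_mem_pointwise_smul σ x _ hx

/-- a real-number lemma: between `r ^ b` and `r' ^ b` there is a power of `q`. -/
theorem lb_exists_pow_between {r r' Q : ℝ} (hr : 0 < r) (hrr : r < r') (hQ : 1 < Q) :
    ∃ (b : ℕ) (a : ℤ), r ^ b ≤ Q ^ a ∧ Q ^ a < r' ^ b := by
  have h1 : 1 < r' / r := (one_lt_div hr).mpr hrr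
  obtain ⟨b, hb⟩ := pow_unbounded_of_one_lt Q h1
  have hrb : 0 < r ^ b := pow_pos hr b
  obtain ⟨n, hn1, hn2⟩ := exists_mem_Ioc_zpow hrb hQ
  refine ⟨b, n + 1, hn2, ?_⟩
  rw [zpow_add_one₀ (by positivity)]
  rw [div_pow, lt_div_iff₀ hrb] at hb
  calc Q ^ n * Q < r ^ b * Q := by
        exact mul_lt_mul_of_pos_right hn1 (by positivity)
    _ = Q * r ^ b := mul_comm _ _
    _ < r' ^ b := hb

theorem lb_norm_le_of_mem_decomposition {σ : AlgebraicClosure ℚ ≃ₐ[ℚ] AlgebraicClosure ℚ}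
    (hσ : σ ∈ (padicPlace q).decompositionSubgroup ℚ) (x : AlgebraicClosure ℚ) :
    ‖padicEmbedding q (σ x)‖ ≤ ‖padicEmbedding q x‖ := by
  have hq : (1 : ℝ) < q := by exact_mod_cast (Fact.out : q.Prime).one_lt
  have hq0 : (0 : ℝ) < q := by linarith
  by_cases hx : x = 0
  · simp [hx]
  by_contra hlt
  rw [not_le] at hlt
  have hr : 0 < ‖padicEmbedding q x‖ := by
    rw [norm_pos_iff]
    exact (map_ne_zero _).mpr hx
  obtain ⟨b, a, h1, h2⟩ := lb_exists_pow_between hr hlt hq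
  -- `y = x ^ b * q ^ a`
  set y : AlgebraicClosure ℚ := x ^ b * (q : AlgebraicClosure ℚ) ^ a with hy
  have hnorm : ∀ z : AlgebraicClosure ℚ, ‖padicEmbedding q (z ^ b * (q : AlgebraicClosure ℚ) ^ a)‖
      = ‖padicEmbedding q z‖ ^ b * ((q : ℝ) ^ a)⁻¹ := by
    intro z
    rw [map_mul, map_pow, map_zpow₀, norm_mul, norm_pow, norm_zpow, lb_norm_padicEmbedding_q,
      inv_zpow]
  have hyA : y ∈ padicPlace q := by
    rw [lb_mem_padicPlace_iff, hy, hnorm, ← div_eq_mul_inv, div_le_one (by positivity)]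
    exact h1
  have hσy := lb_mem_of_mem_decomposition q hσ hyA
  have hσy' : σ y = (σ x) ^ b * (q : AlgebraicClosure ℚ) ^ a := by
    rw [hy, map_mul, map_pow, map_zpow₀, map_natCast]
  rw [hσy', lb_mem_padicPlace_iff, hnorm, ← div_eq_mul_inv, div_le_one (by positivity)] at hσy
  exact absurd hσy (not_le.mpr h2)

/-- (B1) elements of the decomposition group are isometries. -/
theorem norm_padicEmbedding_of_mem_decomposition
    {σ : AlgebraicClosure ℚ ≃ₐ[ℚ] AlgebraicClosure ℚ}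
    (hσ : σ ∈ (padicPlace q).decompositionSubgroup ℚ) (x : AlgebraicClosure ℚ) :
    ‖padicEmbedding q (σ x)‖ = ‖padicEmbedding q x‖ := by
  refine le_antisymm (lb_norm_le_of_mem_decomposition q hσ x) ?_
  have h := lb_norm_le_of_mem_decomposition q (inv_mem hσ) (σ x)
  have h2 : σ⁻¹ (σ x) = x := by
    change σ.symm (σ x) = x
    simp
  rwa [h2] at h

/-! ### extension of an element of the decomposition group -/

/-- `a ⊗ x ↦ a * ι (σ x)`. -/
noncomputable def lbPhi (σ : AlgebraicClosure ℚ ≃ₐ[ℚ] AlgebraicClosure ℚ) :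
    ℚ_[q] ⊗[ℚ] AlgebraicClosure ℚ →ₐ[ℚ_[q]] PadicAlgCl q :=
  Algebra.TensorProduct.lift (Algebra.ofId ℚ_[q] (PadicAlgCl q))
    ((padicEmbedding q).comp (σ : AlgebraicClosure ℚ →ₐ[ℚ] AlgebraicClosure ℚ))
    (fun _ _ => Commute.all _ _)

theorem lbPhi_tmul (σ : AlgebraicClosure ℚ ≃ₐ[ℚ] AlgebraicClosure ℚ) (a : ℚ_[q])
    (x : AlgebraicClosure ℚ) :
    lbPhi q σ (a ⊗ₜ x) = algebraMap ℚ_[q] (PadicAlgCl q) a * padicEmbedding q (σ x) := by
  simp [lbPhi, Algebra.ofId_apply]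

theorem lb_approx (σ : AlgebraicClosure ℚ ≃ₐ[ℚ] AlgebraicClosure ℚ)
    (t : ℚ_[q] ⊗[ℚ] AlgebraicClosure ℚ) :
    ∀ ε : ℝ, 0 < ε → ∃ y : AlgebraicClosure ℚ,
      ‖lbPhi q σ t - padicEmbedding q (σ y)‖ ≤ ε ∧ ‖lbPhi q 1 t - padicEmbedding q y‖ ≤ ε := by
  induction t using TensorProduct.induction_on with
  | zero =>
    intro ε hε
    exact ⟨0, by simpa using hε.le, by simpa using hε.le⟩
  | tmul a x =>
    intro ε hε
    set C : ℝ := max ‖padicEmbedding q (σ x)‖ ‖padicEmbedding q x‖ + 1 with hC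
    have hC0 : 0 < C := by positivity
    obtain ⟨r, hr⟩ := Padic.rat_dense q a (div_pos hε hC0)
    have key : ∀ z : AlgebraicClosure ℚ, ‖padicEmbedding q z‖ ≤ C →
        ‖algebraMap ℚ_[q] (PadicAlgCl q) a * padicEmbedding q z
          - padicEmbedding q ((r : AlgebraicClosure ℚ) * z)‖ ≤ ε := by
      intro z hz
      have h1 : algebraMap ℚ_[q] (PadicAlgCl q) a * padicEmbedding q z
          - padicEmbedding q ((r : AlgebraicClosure ℚ) * z)
          = algebraMap ℚ_[q] (PadicAlgCl q) (a - r) * padicEmbedding q z := by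
        rw [map_mul, map_ratCast, map_sub, map_ratCast]
        ring
      rw [h1, norm_mul, PadicAlgCl.norm_extends]
      calc ‖a - r‖ * ‖padicEmbedding q z‖ ≤ (ε / C) * C :=
            mul_le_mul hr.le hz (norm_nonneg _) (div_pos hε hC0).le
        _ = ε := div_mul_cancel₀ _ hC0.ne'
    refine ⟨(r : AlgebraicClosure ℚ) * x, ?_, ?_⟩
    · rw [lbPhi_tmul, map_mul, map_ratCast]
      have hle := le_max_left (‖padicEmbedding q (σ x)‖) (‖padicEmbedding q x‖)
      exact key (σ x) (by rw [hC]; linarith)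
    · rw [lbPhi_tmul]
      have hle := le_max_right (‖padicEmbedding q (σ x)‖) (‖padicEmbedding q x‖)
      exact key x (by rw [hC]; linarith)
  | add t₁ t₂ h₁ h₂ =>
    intro ε hε
    obtain ⟨y₁, h11, h12⟩ := h₁ (ε / 2) (half_pos hε)
    obtain ⟨y₂, h21, h22⟩ := h₂ (ε / 2) (half_pos hε)
    refine ⟨y₁ + y₂, ?_, ?_⟩
    · have : lbPhi q σ (t₁ + t₂) - padicEmbedding q (σ (y₁ + y₂))
          = (lbPhi q σ t₁ - padicEmbedding q (σ y₁)) + (lbPhi q σ t₂ - padicEmbedding q (σ y₂)) := by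
        simp only [map_add]; ring
      rw [this]
      calc _ ≤ _ + _ := norm_add_le _ _
        _ ≤ ε / 2 + ε / 2 := add_le_add h11 h21
        _ = ε := add_halves ε
    · have : lbPhi q 1 (t₁ + t₂) - padicEmbedding q (y₁ + y₂)
          = (lbPhi q 1 t₁ - padicEmbedding q y₁) + (lbPhi q 1 t₂ - padicEmbedding q y₂) := by
        simp only [map_add]; ring
      rw [this]
      calc _ ≤ _ + _ := norm_add_le _ _
        _ ≤ ε / 2 + ε / 2 := add_le_add h12 h22
        _ = ε := add_halves ε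

theorem lb_ker_le {σ : AlgebraicClosure ℚ ≃ₐ[ℚ] AlgebraicClosure ℚ}
    (hσ : σ ∈ (padicPlace q).decompositionSubgroup ℚ) (t : ℚ_[q] ⊗[ℚ] AlgebraicClosure ℚ)
    (ht : lbPhi q 1 t = 0) : lbPhi q σ t = 0 := by
  rw [← norm_le_zero_iff]
  refine le_of_forall_pos_le_add fun ε hε => ?_
  obtain ⟨y, h1, h2⟩ := lb_approx q σ t (ε / 2) (half_pos hε)
  rw [ht, zero_sub, norm_neg] at h2
  rw [zero_add]
  calc ‖lbPhi q σ t‖ = ‖(lbPhi q σ t - padicEmbedding q (σ y)) + padicEmbedding q (σ y)‖ := by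
        rw [sub_add_cancel]
    _ ≤ ‖lbPhi q σ t - padicEmbedding q (σ y)‖ + ‖padicEmbedding q (σ y)‖ := norm_add_le _ _
    _ ≤ ε / 2 + ε / 2 := by
        rw [norm_padicEmbedding_of_mem_decomposition q hσ y]
        exact add_le_add h1 h2
    _ = ε := add_halves ε

/-- every element of the decomposition group extends to `PadicAlgCl q`. -/
theorem exists_localGalois_of_mem_decomposition
    {σ : AlgebraicClosure ℚ ≃ₐ[ℚ] AlgebraicClosure ℚ}
    (hσ : σ ∈ (padicPlace q).decompositionSubgroup ℚ) :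
    ∃ τ : PadicAlgCl q ≃ₐ[ℚ_[q]] PadicAlgCl q,
      ∀ x, τ (padicEmbedding q x) = padicEmbedding q (σ x) := by
  -- the map on the range of `lbPhi q 1`
  let f₀ : (lbPhi q 1).range →ₐ[ℚ_[q]] PadicAlgCl q :=
    AlgHom.liftOfSurjective (lbPhi q 1).rangeRestrict (lbPhi q 1).rangeRestrict_surjective
      (lbPhi q σ) (by
        intro t ht
        rw [RingHom.mem_ker] at ht ⊢
        apply lb_ker_le q hσ t
        have := congrArg Subtype.val ht
        simpa using this)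
  have hf₀ : ∀ t, f₀ ((lbPhi q 1).rangeRestrict t) = lbPhi q σ t := fun t =>
    AlgHom.liftOfSurjective_apply _ _ _ _ t
  let L : IntermediateField ℚ_[q] (PadicAlgCl q) := subalgebraEquivIntermediateField (lbPhi q 1).range
  let f : L →ₐ[ℚ_[q]] PadicAlgCl q := f₀
  obtain ⟨φ, hφ⟩ := IntermediateField.exists_algHom_of_splits (F := ℚ_[q]) (E := PadicAlgCl q)
    (K := PadicAlgCl q) (L := L)
    (fun s => ⟨Algebra.IsIntegral.isIntegral s, IsAlgClosed.splits _⟩) f
  let τ : PadicAlgCl q ≃ₐ[ℚ_[q]] PadicAlgCl q :=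
    AlgEquiv.ofBijective φ (Algebra.IsAlgebraic.algHom_bijective φ)
  refine ⟨τ, fun x => ?_⟩
  have h1 : lbPhi q 1 (1 ⊗ₜ x) = padicEmbedding q x := by
    rw [lbPhi_tmul]; simp
  have h2 : lbPhi q σ (1 ⊗ₜ x) = padicEmbedding q (σ x) := by
    rw [lbPhi_tmul]; simp
  have hmem : padicEmbedding q x ∈ L := ⟨1 ⊗ₜ x, h1⟩
  have h3 : φ (padicEmbedding q x) = f ⟨padicEmbedding q x, hmem⟩ := by
    rw [← hφ]; rfl
  change φ (padicEmbedding q x) = _
  rw [h3, ← h2, ← hf₀]
  congr 1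
  exact Subtype.ext h1.symm

/-- (B2) the range of `localGaloisToGlobal q` is the decomposition group of `padicPlace q`. -/
theorem range_localGaloisToGlobal :
    (localGaloisToGlobal q).range = (padicPlace q).decompositionSubgroup ℚ := by
  apply le_antisymm
  · rintro _ ⟨τ, rfl⟩
    exact localGaloisToGlobal_mem_decompositionSubgroup q τ
  · intro σ hσ
    obtain ⟨τ, hτ⟩ := exists_localGalois_of_mem_decomposition q hσ
    refine ⟨τ, ?_⟩
    ext x
    apply (padicEmbedding q).toRingHom.injective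
    change padicEmbedding q (localGaloisToGlobal q τ x) = padicEmbedding q (σ x)
    rw [padicEmbedding_localGaloisToGlobal, hτ]

end Fermat.Agent.CFT
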