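import Mathlib
import Fermat.Prelude.Def_GroupCohomology_ContinuousUnramified
import Fermat.Agent.CFT.LocalBridge

/-!
# CFT / S55 bridge: `sha₁`, `sha₂` at cochain level

* the archimedean place is harmless when `2` is invertible;
* the conditions at `q ∈ S` are expressed on the decomposition group `D_q ⊆ Gal(ℚ̄/ℚ)`;
* existence of a perfect pairing from equality of dimensions.
-/

set_option autoImplicit false

namespace Fermat.Agent.CFT

open CategoryTheory groupCohomology ExtCitation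

universe u

/-! ### (A0) finite groups of invertible order -/

section Finite

variable {k G : Type u} [CommRing k] [Group G] [Fintype G] (A : Rep k G)

theorem la_cocycle₁_eq_d₀₁ (w : k) (hw : w * (Fintype.card G : k) = 1) (f : G → A)
    (hf : f ∈ cocycles₁ A) : ∃ a : A, ∀ g, f g = A.ρ g a - a := by
  rw [mem_cocycles₁_iff] at hf
  refine ⟨-(w • ∑ h, f h), fun g => ?_⟩
  have h1 : ∑ h, A.ρ g (f h) = ∑ h, f h - (Fintype.card G : k) • f g := by
    have h2 : ∑ h, f (g * h) = ∑ h, f h :=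
      Fintype.sum_equiv (Equiv.mulLeft g) _ _ (fun _ => rfl)
    have h3 : ∑ h, f (g * h) = ∑ h, A.ρ g (f h) + (Fintype.card G : k) • f g := by
      simp_rw [hf g]
      rw [Finset.sum_add_distrib, Finset.sum_const, Finset.card_univ, Nat.cast_smul_eq_nsmul]
    rw [← h2, h3]; abel
  rw [map_neg, map_smul, map_sum, h1, smul_sub, smul_smul, hw, one_smul]
  abel

theorem la_cocycle₂_eq_d₁₂ (w : k) (hw : w * (Fintype.card G : k) = 1) (f : G × G → A)
    (hf : f ∈ cocycles₂ A) :
    ∃ x : G → A, ∀ g h, f (g, h) = A.ρ g (x h) - x (g * h) + x g := by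
  rw [mem_cocycles₂_iff] at hf
  refine ⟨fun g => w • ∑ j, f (g, j), fun g h => ?_⟩
  have h1 : ∑ j, f (g * h, j) + (Fintype.card G : k) • f (g, h)
      = ∑ j, A.ρ g (f (h, j)) + ∑ j, f (g, j) := by
    have h2 : ∑ j, f (g, h * j) = ∑ j, f (g, j) :=
      Fintype.sum_equiv (Equiv.mulLeft h) _ _ (fun _ => rfl)
    rw [← h2, ← Finset.sum_add_distrib]
    simp_rw [← hf g h]
    rw [Finset.sum_add_distrib, Finset.sum_const, Finset.card_univ, Nat.cast_smul_eq_nsmul]
  have h3 : (Fintype.card G : k) • f (g, h)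
      = ∑ j, A.ρ g (f (h, j)) - ∑ j, f (g * h, j) + ∑ j, f (g, j) := by
    rw [← sub_eq_zero]
    have := sub_eq_zero.mpr h1
    rw [← this]; abel
  simp only [map_smul, map_sum]
  rw [← smul_sub, ← smul_add, ← h3, smul_smul, hw, one_smul]

end Finite

/-! ### (A1) the archimedean place -/

local notation "GQ" => (AlgebraicClosure ℚ ≃ₐ[ℚ] AlgebraicClosure ℚ)

theorem la_arch_eq_one_or (s : archimedeanDecomposition) :
    s = 1 ∨ s = archimedeanGen := by
  obtain ⟨s, hs⟩ := s
  obtain ⟨n, rfl⟩ := Subgroup.mem_zpowers_iff.mp hs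
  rcases Int.even_or_odd' n with ⟨m, rfl | rfl⟩
  · left
    apply Subtype.ext
    change complexConjugation ^ (2 * m) = 1
    rw [zpow_mul, zpow_ofNat, complexConjugation_sq, one_zpow]
  · right
    apply Subtype.ext
    change complexConjugation ^ (2 * m + 1) = complexConjugation
    rw [zpow_add, zpow_mul, zpow_ofNat, complexConjugation_sq, one_zpow, one_mul, zpow_one]

instance la_arch_finite : Finite archimedeanDecomposition := by
  apply Finite.of_injective (fun s : archimedeanDecomposition => (s = 1 : Prop))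
  intro s t hst
  simp only [eq_iff_iff] at hst
  rcases la_arch_eq_one_or s with rfl | rfl
  · exact (hst.mp rfl).symm
  · rcases la_arch_eq_one_or t with rfl | rfl
    · exact hst.mpr rfl
    · rfl

theorem la_arch_card_dvd : Nat.card archimedeanDecomposition ∣ 2 := by
  rw [archimedeanDecomposition, Nat.card_zpowers]
  exact orderOf_dvd_of_pow_eq_one complexConjugation_sq

theorem la_arch_exists_inv {k : Type} [CommRing k] (h2 : IsUnit (2 : k)) :
    ∃ w : k, w * (Nat.card archimedeanDecomposition : k) = 1 := by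
  rcases (Nat.dvd_prime Nat.prime_two).mp la_arch_card_dvd with h | h
  · exact ⟨1, by rw [h]; simp⟩
  · obtain ⟨v, hv⟩ := h2
    exact ⟨(v⁻¹ : kˣ), by rw [h, Nat.cast_ofNat, ← hv]; simp⟩

/-- there is a number field whose fixing subgroup meets `⟨c⟩` trivially. -/
theorem la_arch_exists_level : ∃ F : IntermediateField ℚ (AlgebraicClosure ℚ),
    FiniteDimensional ℚ F ∧ ∀ s : archimedeanDecomposition,
      archimedeanLoc s ∈ F.fixingSubgroup → s = 1 := by
  by_cases hc : archimedeanGen = 1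
  · exact ⟨⊥, inferInstance, fun s _ => by
      rcases la_arch_eq_one_or s with h | h
      · exact h
      · rw [h, hc]⟩
  · have hc' : complexConjugation ≠ 1 := fun h => hc (Subtype.ext h)
    obtain ⟨x, hx⟩ : ∃ x, complexConjugation x ≠ x := by
      by_contra hcon
      push Not at hcon
      exact hc' (AlgEquiv.ext hcon)
    refine ⟨IntermediateField.adjoin ℚ {x}, IntermediateField.adjoin.finiteDimensional
      ((AlgebraicClosure.isAlgebraic ℚ).isIntegral.isIntegral x), fun s hs => ?_⟩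
    rcases la_arch_eq_one_or s with h | h
    · exact h
    · exfalso
      rw [h, IntermediateField.mem_fixingSubgroup_iff] at hs
      exact hx (hs x (IntermediateField.mem_adjoin_simple_self ℚ x))

theorem la_arch_isLevelConstant₁ {X : Type*} (f : archimedeanDecomposition → X) :
    IsLevelConstant₁ archimedeanLoc f := by
  obtain ⟨F, hF, h⟩ := la_arch_exists_level
  exact ⟨F, hF, fun g s hs => by rw [h s hs, mul_one]⟩

variable {k : Type} [CommRing k]

theorem subsingleton_H1_archimedean (h2 : IsUnit (2 : k)) (A : Rep k GQ) :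
    Subsingleton (H1 (Rep.res archimedeanLoc A)) := by
  classical
  let _ : Fintype archimedeanDecomposition := Fintype.ofFinite _
  obtain ⟨w, hw⟩ := la_arch_exists_inv h2
  rw [Nat.card_eq_fintype_card] at hw
  refine ⟨fun x y => ?_⟩
  have key : ∀ z : H1 (Rep.res archimedeanLoc A), z = 0 := by
    intro z
    induction z using H1_induction_on with
    | h c =>
      rw [H1π_eq_zero_iff]
      obtain ⟨a, ha⟩ := la_cocycle₁_eq_d₀₁ (Rep.res archimedeanLoc A) w hw c c.2
      refine ⟨a, ?_⟩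
      ext g
      rw [d₀₁_hom_apply]
      exact (ha g).symm
  rw [key x, key y]

theorem subsingleton_continuousH2_archimedean (h2 : IsUnit (2 : k)) (M : Rep k GQ) :
    Subsingleton (continuousH2 archimedeanLoc (Rep.res archimedeanLoc M)) := by
  classical
  let _ : Fintype archimedeanDecomposition := Fintype.ofFinite _
  obtain ⟨w, hw⟩ := la_arch_exists_inv h2
  rw [Nat.card_eq_fintype_card] at hw
  refine ⟨fun x y => ?_⟩
  have key : ∀ z : continuousH2 archimedeanLoc (Rep.res archimedeanLoc M), z = 0 := by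
    intro z
    obtain ⟨c, rfl⟩ := Submodule.mkQ_surjective _ z
    rw [continuousH2π_eq_zero_iff, mem_levelCoboundaries₂_iff]
    obtain ⟨x, hx⟩ := la_cocycle₂_eq_d₁₂ (Rep.res archimedeanLoc M) w hw c c.2.1
    refine ⟨x, la_arch_isLevelConstant₁ x, ?_⟩
    ext ⟨g, h⟩
    rw [d₁₂_hom_apply]
    exact (hx g h).symm
  rw [key x, key y]

/-! ### (A2) local triviality in terms of the range of the localisation map -/

section General

variable {H : Type} [Group H] (r : H →* GQ)

theorem map_H1π_eq_zero_iff (A : Rep k GQ) (c : cocycles₁ A) :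
    (map r (𝟙 (Rep.res r A)) 1).hom ((H1π A).hom c) = 0 ↔
      ∃ a : A, ∀ σ ∈ r.range, c σ = A.ρ σ a - a := by
  have h1 : (map r (𝟙 (Rep.res r A)) 1).hom ((H1π A).hom c)
      = H1π (Rep.res r A) (mapCocycles₁ r (𝟙 (Rep.res r A)) c) :=
    H1π_comp_map_apply r (𝟙 (Rep.res r A)) c
  rw [h1, H1π_eq_zero_iff]
  constructor
  · rintro ⟨a, ha⟩
    refine ⟨a, ?_⟩
    rintro _ ⟨τ, rfl⟩
    have := congrFun ha τ
    rw [d₀₁_hom_apply] at this
    exact this.symm
  · rintro ⟨a, ha⟩
    refine ⟨a, ?_⟩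
    ext τ
    rw [d₀₁_hom_apply]
    exact (ha (r τ) ⟨τ, rfl⟩).symm

variable (S : Finset Nat.Primes) (M : Rep k GQ)

theorem locRes₂S_π_eq_zero_iff' (f : levelCocyclesS₂ S M) :
    locRes₂S S M r (continuousH2Sπ S M f) = 0 ↔
      ∃ y : H → M, IsLevelConstant₁ r y ∧ ∀ τ τ' : H,
        (f : GQ × GQ → M) (r τ, r τ') = M.ρ (r τ) (y τ') - y (τ * τ') + y τ := by
  have h1 : locRes₂S S M r (continuousH2Sπ S M f)
      = continuousH2π r (Rep.res r M) (levelCocycles₂Map (rH := MonoidHom.id _) (rG := r) r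
          (fun _ => rfl) (LinearMap.id : M →ₗ[k] Rep.res r M) (fun _ _ => rfl)
          (levelCocyclesS₂ToLevelCocycles₂ S M f)) := rfl
  rw [h1, continuousH2π_eq_zero_iff, mem_levelCoboundaries₂_iff]
  constructor
  · rintro ⟨y, hy, hd⟩
    refine ⟨y, hy, fun τ τ' => ?_⟩
    have := congrFun hd (τ, τ')
    rw [d₁₂_hom_apply] at this
    exact this.symm
  · rintro ⟨y, hy, hd⟩
    refine ⟨y, hy, ?_⟩
    ext ⟨τ, τ'⟩
    rw [d₁₂_hom_apply]
    exact (hd τ τ').symm

/-- extension of a level-constant function on `H` to a level-constant function on `Gal(ℚ̄/ℚ)`. -/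
theorem la_exists_extension {X : Type*} [Inhabited X] (y : H → X) (hy : IsLevelConstant₁ r y) :
    ∃ x : GQ → X, IsLevelConstant₁ (MonoidHom.id _) x ∧ ∀ τ, x (r τ) = y τ := by
  classical
  obtain ⟨F, hF, h⟩ := hy
  have hwd : ∀ (g : GQ) (τ τ' : H), (r τ)⁻¹ * g ∈ F.fixingSubgroup →
      (r τ')⁻¹ * g ∈ F.fixingSubgroup → y τ = y τ' := by
    intro g τ τ' h1 h2
    have h3 : r (τ'⁻¹ * τ) ∈ F.fixingSubgroup := by
      have := mul_mem h2 (inv_mem h1)
      rw [map_mul, map_inv]
      convert this using 1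
      group
    have := h τ' (τ'⁻¹ * τ) h3
    rwa [mul_inv_cancel_left] at this
  let x : GQ → X := fun g =>
    if hg : ∃ τ : H, (r τ)⁻¹ * g ∈ F.fixingSubgroup then y hg.choose else default
  have hx : ∀ (g : GQ) (τ : H), (r τ)⁻¹ * g ∈ F.fixingSubgroup → x g = y τ := by
    intro g τ hτ
    have hg : ∃ τ : H, (r τ)⁻¹ * g ∈ F.fixingSubgroup := ⟨τ, hτ⟩
    simp only [x, dif_pos hg]
    exact hwd g _ _ hg.choose_spec hτ
  refine ⟨x, ⟨F, hF, fun g s hs => ?_⟩, fun τ => hx _ τ (by rw [inv_mul_cancel]; exact one_mem _)⟩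
  have hs' : s ∈ F.fixingSubgroup := hs
  by_cases hg : ∃ τ : H, (r τ)⁻¹ * g ∈ F.fixingSubgroup
  · obtain ⟨τ, hτ⟩ := hg
    rw [hx g τ hτ, hx (g * s) τ (by rw [← mul_assoc]; exact mul_mem hτ hs')]
  · have hg' : ¬ ∃ τ : H, (r τ)⁻¹ * (g * s) ∈ F.fixingSubgroup := by
      rintro ⟨τ, hτ⟩
      apply hg
      refine ⟨τ, ?_⟩
      have := mul_mem hτ (inv_mem hs')
      rwa [← mul_assoc, mul_inv_cancel_right] at this
    simp only [x, dif_neg hg, dif_neg hg']

theorem locRes₂S_π_eq_zero_iff (f : levelCocyclesS₂ S M) :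
    locRes₂S S M r (continuousH2Sπ S M f) = 0 ↔
      ∃ x : GQ → M, IsLevelConstant₁ (MonoidHom.id _) x ∧ ∀ σ ∈ r.range, ∀ τ ∈ r.range,
        (f : GQ × GQ → M) (σ, τ) = M.ρ σ (x τ) - x (σ * τ) + x σ := by
  rw [locRes₂S_π_eq_zero_iff']
  constructor
  · rintro ⟨y, hy, hd⟩
    have : Inhabited M := ⟨0⟩
    obtain ⟨x, hx, hxy⟩ := la_exists_extension r y hy
    refine ⟨x, hx, ?_⟩
    rintro _ ⟨σ, rfl⟩ _ ⟨τ, rfl⟩
    rw [hd, ← map_mul, hxy, hxy, hxy]
  · rintro ⟨x, hx, hd⟩
    refine ⟨x ∘ r, IsLevelConstant₁.precomp (rH := MonoidHom.id _) r (fun _ => rfl) hx,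
      fun τ τ' => ?_⟩
    rw [hd _ ⟨τ, rfl⟩ _ ⟨τ', rfl⟩]
    simp

end General

/-! ### (A3) `sha₁`, `sha₂` on decomposition groups -/

/-- the decomposition group at `q` (of the place `primeLocalPlace q` of `ℚ̄`). -/
noncomputable def decompQ (q : Nat.Primes) : Subgroup GQ :=
  (primeLocalPlace q).decompositionSubgroup ℚ

theorem range_primeLocalToGlobal (q : Nat.Primes) : (primeLocalToGlobal q).range = decompQ q := by
  let _ : Fact (q : ℕ).Prime := ⟨q.2⟩
  exact range_localGaloisToGlobal (q : ℕ)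

theorem continuousH2Sπ_mem_sha₂_iff (h2 : IsUnit (2 : k)) (S : Finset Nat.Primes) (M : Rep k GQ)
    (f : levelCocyclesS₂ S M) :
    continuousH2Sπ S M f ∈ sha₂ S M ↔
      ∀ q ∈ S, ∃ x : GQ → M, IsLevelConstant₁ (MonoidHom.id _) x ∧
        ∀ σ ∈ decompQ q, ∀ τ ∈ decompQ q,
          (f : GQ × GQ → M) (σ, τ) = M.ρ σ (x τ) - x (σ * τ) + x σ := by
  rw [sha₂, LinearMap.mem_ker]
  constructor
  · intro h q hq
    have h1 : locRes₂S S M (primeLocalToGlobal q) (continuousH2Sπ S M f) = 0 :=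
      congrFun h (Sum.inr ⟨q, hq⟩)
    have h3 := (locRes₂S_π_eq_zero_iff (primeLocalToGlobal q) S M f).mp h1
    rwa [range_primeLocalToGlobal] at h3
  · intro h
    funext v
    rw [locTotal₂S_apply]
    rcases v with v | ⟨q, hq⟩
    · have := subsingleton_continuousH2_archimedean h2 M
      exact Subsingleton.elim (α := continuousH2 archimedeanLoc (Rep.res archimedeanLoc M)) _ _
    · apply (locRes₂S_π_eq_zero_iff (primeLocalToGlobal q) S M f).mpr
      rw [range_primeLocalToGlobal]
      exact h q hq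

theorem mem_sha₁_iff {K : Type} [Field K] (h2 : (2 : K) ≠ 0) (S : Finset Nat.Primes)
    (A : Rep K GQ) (x : H1 A) :
    x ∈ sha₁ S A ↔ ∃ c : cocycles₁ A, IsLevelConstantS₁ S c ∧ (H1π A).hom c = x ∧
      ∀ q ∈ S, ∃ a : A, ∀ σ ∈ decompQ q, c σ = A.ρ σ a - a := by
  rw [sha₁, Submodule.mem_inf, mem_continuousH1S_iff, LinearMap.mem_ker]
  constructor
  · rintro ⟨⟨c, hc, rfl⟩, h⟩
    refine ⟨c, hc, rfl, fun q hq => ?_⟩
    have h1 : (map (primeLocalToGlobal q) (𝟙 (Rep.res (primeLocalToGlobal q) A)) 1).hom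
        ((H1π A).hom c) = 0 := congrFun h (Sum.inr ⟨q, hq⟩)
    have h3 := (map_H1π_eq_zero_iff (primeLocalToGlobal q) A c).mp h1
    rwa [range_primeLocalToGlobal] at h3
  · rintro ⟨c, hc, rfl, h⟩
    refine ⟨⟨c, hc, rfl⟩, ?_⟩
    funext v
    rw [locTotal_apply]
    rcases v with v | ⟨q, hq⟩
    · have := subsingleton_H1_archimedean (isUnit_iff_ne_zero.mpr h2) A
      exact Subsingleton.elim (α := H1 (Rep.res archimedeanLoc A)) _ _
    · apply (map_H1π_eq_zero_iff (primeLocalToGlobal q) A c).mpr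
      rw [range_primeLocalToGlobal]
      exact h q hq

/-! ### (R0) perfect pairings from dimensions -/

theorem exists_perfect_of_finrank_eq {K V W : Type*} [Field K] [AddCommGroup V] [Module K V]
    [AddCommGroup W] [Module K W] [FiniteDimensional K V] [FiniteDimensional K W]
    (h : Module.finrank K V = Module.finrank K W) :
    ∃ B : V →ₗ[K] W →ₗ[K] K,
      (∀ y, (∀ x, B y x = 0) → y = 0) ∧ (∀ x, (∀ y, B y x = 0) → x = 0) := by
  have h' : Module.finrank K V = Module.finrank K (Module.Dual K W) := by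
    rw [h, Subspace.dual_finrank_eq]
  let e : V ≃ₗ[K] Module.Dual K W := LinearEquiv.ofFinrankEq _ _ h'
  refine ⟨e.toLinearMap, fun y hy => ?_, fun x hx => ?_⟩
  · apply e.injective
    rw [map_zero]
    exact LinearMap.ext hy
  · rw [← Module.forall_dual_apply_eq_zero_iff K]
    intro φ
    obtain ⟨y, rfl⟩ := e.surjective φ
    exact hx y

/-- two injections into the duals suffice (one space being finite-dimensional). -/
theorem exists_perfect_of_injective {K V W : Type*} [Field K] [AddCommGroup V] [Module K V]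
    [AddCommGroup W] [Module K W] [FiniteDimensional K W]
    (i : V →ₗ[K] Module.Dual K W) (hi : Function.Injective i)
    (j : W →ₗ[K] Module.Dual K V) (hj : Function.Injective j) :
    ∃ B : V →ₗ[K] W →ₗ[K] K,
      (∀ y, (∀ x, B y x = 0) → y = 0) ∧ (∀ x, (∀ y, B y x = 0) → x = 0) := by
  have : FiniteDimensional K V := FiniteDimensional.of_injective i hi
  apply exists_perfect_of_finrank_eq
  apply le_antisymm
  · rw [← Subspace.dual_finrank_eq (K := K) (V := W)]
    exact LinearMap.finrank_le_finrank_of_injective hi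
  · rw [← Subspace.dual_finrank_eq (K := K) (V := V)]
    exact LinearMap.finrank_le_finrank_of_injective hj

end Fermat.Agent.CFT
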