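import Mathlib
import Fermat.Prelude.Def_GaloisRep_CompletionBridge
import Fermat.Prelude.Def_GroupCohomology_ContinuousH2

/-!
# CFT / S55 bridge: Krasner's lemma for `PadicAlgCl q`

`PadicAlgCl q = ℚ_q · ι(ℚ̄)`, hence `localGaloisToGlobal q` is injective and the "level topology"
induced from number fields is the Krull topology of the local Galois group.
-/

set_option autoImplicit false

namespace Fermat.Agent.CFT

open scoped NNReal Pointwise IntermediateField
open Polynomial

variable (q : ℕ) [Fact q.Prime]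

local instance lk_tower : IsScalarTower ℚ ℚ_[q] (PadicAlgCl q) :=
  IsScalarTower.of_algebraMap_eq' (Subsingleton.elim _ _)
local instance lk_isAlgebraicQbar : Algebra.IsAlgebraic ℚ (AlgebraicClosure ℚ) :=
  AlgebraicClosure.isAlgebraic ℚ
local instance lk_isAlgClosureQbar : IsAlgClosure ℚ (AlgebraicClosure ℚ) :=
  ⟨inferInstance, inferInstance⟩
local instance lk_normalQbar : Normal ℚ (AlgebraicClosure ℚ) :=
  IsAlgClosure.normal ℚ (AlgebraicClosure ℚ)

theorem lk_denseRange : DenseRange (algebraMap ℚ ℚ_[q]) := by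
  rw [Metric.denseRange_iff]
  intro x r hr
  obtain ⟨y, hy⟩ := Padic.rat_dense q x hr
  exact ⟨y, by rw [dist_eq_norm]; simpa using hy⟩

/-- a root in `PadicAlgCl q` of a nonzero rational polynomial comes from `ℚ̄`. -/
theorem lk_mem_range_of_aeval_eq_zero {g : ℚ[X]} (hg : g ≠ 0) {b : PadicAlgCl q}
    (hb : aeval b g = 0) : b ∈ Set.range (padicEmbedding q) := by
  have hs : (g.map (algebraMap ℚ (AlgebraicClosure ℚ))).Splits := IsAlgClosed.splits _
  have hmem : b ∈ g.aroots (PadicAlgCl q) := by
    rw [mem_aroots]; exact ⟨hg, hb⟩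
  have hmap : g.map (algebraMap ℚ (PadicAlgCl q))
      = (g.map (algebraMap ℚ (AlgebraicClosure ℚ))).map (padicEmbedding q).toRingHom := by
    rw [Polynomial.map_map]
    congr 1
    exact Subsingleton.elim _ _
  rw [Polynomial.aroots_def, hmap, Splits.roots_map hs, Multiset.mem_map] at hmem
  obtain ⟨c, _, hc⟩ := hmem
  exact ⟨c, hc⟩

/-- **Krasner**: every element of `PadicAlgCl q` lies in `ℚ_q(ι b)` for some `b ∈ ℚ̄`. -/
theorem lk_exists_mem_adjoin (a : PadicAlgCl q) :
    ∃ b : AlgebraicClosure ℚ, a ∈ ℚ_[q]⟮padicEmbedding q b⟯ := by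
  have haint : IsIntegral ℚ_[q] a := Algebra.IsIntegral.isIntegral a
  set f : ℚ_[q][X] := minpoly ℚ_[q] a with hf
  have fmon : f.Monic := minpoly.monic haint
  have firr : Irreducible f := minpoly.irreducible haint
  have fa0 : f.aeval a = 0 := minpoly.aeval _ _
  have fnatdeg0 : f.natDegree ≠ 0 := (Irreducible.natDegree_pos firr).ne'
  classical
  let S : Finset (PadicAlgCl q) := {x ∈ (f.rootSet (PadicAlgCl q)).toFinset | x ≠ a}
  let δ : ℝ := if hS : S.Nonempty then Finset.min' (S.image fun x => ‖a - x‖)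
      (Finset.image_nonempty.mpr hS) else 1
  have norm_sub_le : ∀ a' : PadicAlgCl q, IsConjRoot ℚ_[q] a a' → a ≠ a' → δ ≤ ‖a - a'‖ := by
    intro a' conj ne
    by_cases hS : S.Nonempty <;> simp only [hS, ↓reduceDIte, δ]
    · apply Finset.min'_le (S.image fun x => ‖a - x‖) (‖a - a'‖)
      apply Finset.mem_image_of_mem
      simp only [Finset.mem_filter, Set.mem_toFinset, S]
      rw [hf, ← (isConjRoot_iff_mem_minpoly_rootSet haint)]
      exact ⟨conj, ne.symm⟩
    · simp only [ne_eq, Finset.not_nonempty_iff_eq_empty, Finset.filter_eq_empty_iff,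
      Set.mem_toFinset, not_not, S] at hS
      rw [isConjRoot_iff_mem_minpoly_rootSet haint] at conj
      exact (ne (hS conj).symm).elim
  have δpos : δ > 0 := by
    by_cases hS : S.Nonempty <;> simp only [hS, ↓reduceDIte, δ]
    · simp only [gt_iff_lt, Finset.lt_min'_iff, Finset.mem_image, forall_exists_index, and_imp,
        forall_apply_eq_imp_iff₂]
      rintro a' ha'
      simp only [Finset.mem_filter, Set.mem_toFinset, S] at ha'
      rw [norm_pos_iff, sub_ne_zero]
      exact ha'.2.symm
    · linarith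
  have hε : (δ / (max ‖a‖ 1)) ^ f.natDegree / (f.natDegree + 1) > 0 := by positivity
  obtain ⟨g, gmon, gdeg, gcoeff⟩ :=
    exists_monic_and_natDegree_eq_and_norm_map_algebraMap_coeff_sub_lt (lk_denseRange q) fmon hε
  obtain ⟨b, hb, hab⟩ := exists_aroots_norm_sub_lt_of_norm_coeff_sub_lt (L := PadicAlgCl q)
      hε fa0 fmon (gmon.map _) (gdeg ▸ (g.natDegree_map _)) gcoeff (IsAlgClosed.splits _)
  have hab : ‖a - b‖ < δ := by
    rw [← Real.rpow_natCast, ← mul_comm_div, div_self, one_mul,
        ← Real.rpow_mul (div_pos δpos (by positivity)).le, mul_inv_cancel₀] at hab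
    · simpa [mul_assoc, div_mul_cancel₀ _ (by positivity : (max ‖a‖ 1) > 0).ne'] using hab
    · simp [fnatdeg0]
    · positivity
  simp only [Polynomial.mem_roots', ne_eq, Polynomial.map_eq_zero, Polynomial.IsRoot.def,
    Polynomial.eval_map_algebraMap] at hb
  have hb0 : aeval b g = 0 := by
    have := hb.2
    rwa [aeval_map_algebraMap] at this
  obtain ⟨c, rfl⟩ := lk_mem_range_of_aeval_eq_zero q gmon.ne_zero hb0
  refine ⟨c, ?_⟩
  exact IsKrasner.krasner firr.separable (IsAlgClosed.splits _)
    ⟨(g.map _), gmon.map _, hb.2⟩ fun a' h1 h2 ↦ lt_of_lt_of_le hab (norm_sub_le a' h1 h2)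

/-- (K1) `PadicAlgCl q` is generated over `ℚ_q` by the image of `ℚ̄`. -/
theorem adjoin_range_padicEmbedding :
    IntermediateField.adjoin ℚ_[q] (Set.range (padicEmbedding q)) = ⊤ := by
  rw [eq_top_iff]
  intro a _
  obtain ⟨b, hb⟩ := lk_exists_mem_adjoin q a
  exact IntermediateField.adjoin.mono _ _ _ (by rintro _ rfl; exact ⟨b, rfl⟩) hb

/-- the local level field `ℚ_q · ι(F)`. -/
noncomputable def localLevel (F : IntermediateField ℚ (AlgebraicClosure ℚ)) :
    IntermediateField ℚ_[q] (PadicAlgCl q) :=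
  IntermediateField.adjoin ℚ_[q] (padicEmbedding q '' (F : Set (AlgebraicClosure ℚ)))

theorem padicEmbedding_mem_localLevel {F : IntermediateField ℚ (AlgebraicClosure ℚ)}
    {x : AlgebraicClosure ℚ} (hx : x ∈ F) : padicEmbedding q x ∈ localLevel q F :=
  IntermediateField.subset_adjoin _ _ ⟨x, hx, rfl⟩

theorem localLevel_mono {F F' : IntermediateField ℚ (AlgebraicClosure ℚ)} (h : F ≤ F') :
    localLevel q F ≤ localLevel q F' :=
  IntermediateField.adjoin.mono _ _ _ (Set.image_mono h)

theorem localLevel_adjoin_simple (b : AlgebraicClosure ℚ) :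
    localLevel q ℚ⟮b⟯ = ℚ_[q]⟮padicEmbedding q b⟯ := by
  apply le_antisymm
  · rw [localLevel, IntermediateField.adjoin_le_iff]
    rintro _ ⟨x, hx, rfl⟩
    have hb : IsAlgebraic ℚ b := Algebra.IsAlgebraic.isAlgebraic b
    rw [SetLike.mem_coe, ← IntermediateField.mem_toSubalgebra,
      IntermediateField.adjoin_simple_toSubalgebra_of_isAlgebraic hb] at hx
    obtain ⟨P, rfl⟩ := Algebra.adjoin_singleton_eq_range_aeval ℚ b ▸ hx
    have h1 : padicEmbedding q (aeval b P) = aeval (padicEmbedding q b) P :=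
      (Polynomial.aeval_algHom_apply _ _ _).symm
    have h2 : aeval (padicEmbedding q b) P
        = aeval (padicEmbedding q b) (P.map (algebraMap ℚ ℚ_[q])) := by
      rw [aeval_map_algebraMap]
    change padicEmbedding q (aeval b P) ∈ ℚ_[q]⟮padicEmbedding q b⟯
    rw [h1, h2]
    exact IntermediateField.algebra_adjoin_le_adjoin _ _
      (Polynomial.aeval_mem_adjoin_singleton _ _)
  · rw [IntermediateField.adjoin_simple_le_iff]
    exact padicEmbedding_mem_localLevel q (IntermediateField.mem_adjoin_simple_self _ _)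

instance finiteDimensional_localLevel (F : IntermediateField ℚ (AlgebraicClosure ℚ))
    [FiniteDimensional ℚ F] : FiniteDimensional ℚ_[q] (localLevel q F) := by
  obtain ⟨b, hb⟩ := @Field.exists_primitive_element ℚ F _ _ (IntermediateField.algebra' F) _ _
  have hF : F = ℚ⟮(b : AlgebraicClosure ℚ)⟯ := by
    have := congrArg IntermediateField.lift hb
    rw [IntermediateField.lift_adjoin_simple, IntermediateField.lift_top] at this
    exact this.symm
  rw [hF, localLevel_adjoin_simple]
  exact IntermediateField.adjoin.finiteDimensional (Algebra.IsIntegral.isIntegral _)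

/-- (K4) -/
theorem localGaloisToGlobal_mem_fixingSubgroup_iff
    (F : IntermediateField ℚ (AlgebraicClosure ℚ)) (τ : PadicAlgCl q ≃ₐ[ℚ_[q]] PadicAlgCl q) :
    localGaloisToGlobal q τ ∈ F.fixingSubgroup ↔ τ ∈ (localLevel q F).fixingSubgroup := by
  rw [IntermediateField.mem_fixingSubgroup_iff, IntermediateField.mem_fixingSubgroup_iff]
  constructor
  · intro h
    have hle : localLevel q F ≤ IntermediateField.fixedField (Subgroup.zpowers τ) := by
      rw [localLevel, IntermediateField.adjoin_le_iff]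
      rintro _ ⟨x, hx, rfl⟩
      rw [SetLike.mem_coe, IntermediateField.mem_fixedField_iff]
      intro f hf
      obtain ⟨n, rfl⟩ := Subgroup.mem_zpowers_iff.mp hf
      have h1 : τ (padicEmbedding q x) = padicEmbedding q x := by
        rw [← padicEmbedding_localGaloisToGlobal, h x hx]
      have h2 : τ ∈ MulAction.stabilizer (PadicAlgCl q ≃ₐ[ℚ_[q]] PadicAlgCl q)
          (padicEmbedding q x) := h1
      exact zpow_mem h2 n
    intro y hy
    exact (IntermediateField.mem_fixedField_iff _ _).mp (hle hy) τ (Subgroup.mem_zpowers τ)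
  · intro h x hx
    apply (padicEmbedding q).toRingHom.injective
    change padicEmbedding q (localGaloisToGlobal q τ x) = padicEmbedding q x
    rw [padicEmbedding_localGaloisToGlobal]
    exact h _ (padicEmbedding_mem_localLevel q hx)

theorem localLevel_top : localLevel q ⊤ = ⊤ := by
  rw [localLevel, ← adjoin_range_padicEmbedding q]
  congr 1
  simp

/-- (K2) -/
theorem localGaloisToGlobal_injective : Function.Injective (localGaloisToGlobal q) := by
  rw [injective_iff_map_eq_one]
  intro τ hτ
  have h1 : localGaloisToGlobal q τ ∈ (⊤ : IntermediateField ℚ (AlgebraicClosure ℚ)).fixingSubgroup := by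
    rw [hτ]; exact one_mem _
  rw [localGaloisToGlobal_mem_fixingSubgroup_iff, localLevel_top,
    IntermediateField.mem_fixingSubgroup_iff] at h1
  ext y
  exact h1 y trivial

/-- (K3) the local level fields of finite Galois number fields are cofinal. -/
theorem exists_le_localLevel (E : IntermediateField ℚ_[q] (PadicAlgCl q))
    [FiniteDimensional ℚ_[q] E] :
    ∃ F : IntermediateField ℚ (AlgebraicClosure ℚ), FiniteDimensional ℚ F ∧ IsGalois ℚ F ∧
      E ≤ localLevel q F := by
  obtain ⟨a, ha⟩ := Field.exists_primitive_element ℚ_[q] E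
  have hE : E = ℚ_[q]⟮(a : PadicAlgCl q)⟯ := by
    have := congrArg IntermediateField.lift ha
    rw [IntermediateField.lift_adjoin_simple, IntermediateField.lift_top] at this
    exact this.symm
  obtain ⟨b, hb⟩ := lk_exists_mem_adjoin q (a : PadicAlgCl q)
  have : FiniteDimensional ℚ ℚ⟮b⟯ :=
    IntermediateField.adjoin.finiteDimensional (Algebra.IsIntegral.isIntegral b)
  refine ⟨IntermediateField.normalClosure ℚ ℚ⟮b⟯ (AlgebraicClosure ℚ), inferInstance,
    ?_, ?_⟩
  · have h : @IsGalois ℚ _ (IntermediateField.normalClosure ℚ ℚ⟮b⟯ (AlgebraicClosure ℚ)) _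
        (IntermediateField.algebra' _) := ⟨⟩
    convert h
    exact Subsingleton.elim _ _
  rw [hE, IntermediateField.adjoin_simple_le_iff]
  apply localLevel_mono q (IntermediateField.le_normalClosure ℚ⟮b⟯)
  rw [localLevel_adjoin_simple]
  exact hb

/-- (K5) level-constancy with respect to number fields = local constancy for the Krull topology
of the local Galois group. -/
theorem isLevelConstant₁_localGaloisToGlobal_iff {X : Type*}
    (f : (PadicAlgCl q ≃ₐ[ℚ_[q]] PadicAlgCl q) → X) :
    groupCohomology.IsLevelConstant₁ (localGaloisToGlobal q) f ↔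
      ∃ E : IntermediateField ℚ_[q] (PadicAlgCl q), FiniteDimensional ℚ_[q] E ∧
        ∀ g s, s ∈ E.fixingSubgroup → f (g * s) = f g := by
  constructor
  · rintro ⟨F, hF, h⟩
    exact ⟨localLevel q F, inferInstance, fun g s hs =>
      h g s ((localGaloisToGlobal_mem_fixingSubgroup_iff q F s).mpr hs)⟩
  · rintro ⟨E, hE, h⟩
    obtain ⟨F, hF, -, hle⟩ := exists_le_localLevel q E
    exact ⟨F, hF, fun g s hs => h g s (IntermediateField.fixingSubgroup_antitone hle
      ((localGaloisToGlobal_mem_fixingSubgroup_iff q F s).mp hs))⟩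

theorem isLevelConstant₂_localGaloisToGlobal_iff {X : Type*}
    (f : (PadicAlgCl q ≃ₐ[ℚ_[q]] PadicAlgCl q) × (PadicAlgCl q ≃ₐ[ℚ_[q]] PadicAlgCl q) → X) :
    groupCohomology.IsLevelConstant₂ (localGaloisToGlobal q) f ↔
      ∃ E : IntermediateField ℚ_[q] (PadicAlgCl q), FiniteDimensional ℚ_[q] E ∧
        ∀ g g' s s', s ∈ E.fixingSubgroup → s' ∈ E.fixingSubgroup →
          f (g * s, g' * s') = f (g, g') := by
  constructor
  · rintro ⟨F, hF, h⟩
    exact ⟨localLevel q F, inferInstance, fun g g' s s' hs hs' =>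
      h g g' s s' ((localGaloisToGlobal_mem_fixingSubgroup_iff q F s).mpr hs)
        ((localGaloisToGlobal_mem_fixingSubgroup_iff q F s').mpr hs')⟩
  · rintro ⟨E, hE, h⟩
    obtain ⟨F, hF, -, hle⟩ := exists_le_localLevel q E
    exact ⟨F, hF, fun g g' s s' hs hs' => h g g' s s'
      (IntermediateField.fixingSubgroup_antitone hle
        ((localGaloisToGlobal_mem_fixingSubgroup_iff q F s).mp hs))
      (IntermediateField.fixingSubgroup_antitone hle
        ((localGaloisToGlobal_mem_fixingSubgroup_iff q F s').mp hs'))⟩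

/-- if `F` is stable under `Gal(ℚ̄/ℚ)` then `localLevel q F` is normal over `ℚ_q`. -/
theorem normal_localLevel {F : IntermediateField ℚ (AlgebraicClosure ℚ)}
    (hF : ∀ σ : AlgebraicClosure ℚ ≃ₐ[ℚ] AlgebraicClosure ℚ, ∀ x ∈ F, σ x ∈ F) :
    Normal ℚ_[q] (localLevel q F) := by
  rw [IntermediateField.normal_iff_forall_map_le']
  intro σ
  rw [localLevel, IntermediateField.adjoin_map, IntermediateField.adjoin_le_iff]
  rintro _ ⟨_, ⟨x, hx, rfl⟩, rfl⟩
  change σ (padicEmbedding q x) ∈ _
  rw [← padicEmbedding_localGaloisToGlobal]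
  exact padicEmbedding_mem_localLevel q (hF _ x hx)

theorem lk_stable_of_isGalois (F : IntermediateField ℚ (AlgebraicClosure ℚ)) [IsGalois ℚ F]
    (σ : AlgebraicClosure ℚ ≃ₐ[ℚ] AlgebraicClosure ℚ) (x : AlgebraicClosure ℚ) (hx : x ∈ F) :
    σ x ∈ F := by
  have h : @Normal ℚ F _ _ (IntermediateField.algebra' F) := by
    have h0 : Normal ℚ F := inferInstance
    convert h0
    exact Subsingleton.elim _ _
  rw [IntermediateField.normal_iff_forall_map_le'] at h
  exact h σ ⟨x, hx, rfl⟩

instance isGalois_localLevel (F : IntermediateField ℚ (AlgebraicClosure ℚ)) [IsGalois ℚ F] :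
    IsGalois ℚ_[q] (localLevel q F) :=
  haveI := normal_localLevel q (lk_stable_of_isGalois F)
  ⟨⟩

end Fermat.Agent.CFT
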